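import Mathlib
import Fermat.Agent.S41.H41.CorrSys

/-!
# S41, unit U2 (generic): product systems and commutation of a transfer-like correspondence
with a Hecke operator

* `isCorrSys_prod`: the product family of two correspondence systems is a system as soon as its
  members are pairwise inequivalent.
* `corrOp_congr_of_exists`: two systems with index sets of the same cardinality such that every
  member of the first is equivalent to a member of the second define the same operator.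
* `corrOp_heckeOp_comm`: a correspondence system `c i = D * s i` (`s i ∈ Γ`, `D⁻¹ Γ' D ⊆ Γ`)
  from `Γ` to `Γ'` commutes with the Hecke operators of a family `α` which is a Hecke system
  for both groups, under two elementary matrix conditions.
-/

set_option autoImplicit false

open scoped MatrixGroups
open Fermat.Agent.S16.H75 Fermat.Agent.S41.H41

namespace Fermat.Agent.S41.H63

/-- Left cancellation of an integer matrix of nonzero determinant. -/
theorem mul_left_cancel_of_det_ne_zero {A B M : Matrix (Fin 2) (Fin 2) ℤ} (hM : M.det ≠ 0)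
    (h : M * A = M * B) : A = B := by
  have h1 : M.adjugate * (M * A) = M.adjugate * (M * B) := by rw [h]
  rw [← Matrix.mul_assoc, ← Matrix.mul_assoc, Matrix.adjugate_mul] at h1
  ext i j
  have h2 := congrFun (congrFun h1 i) j
  simp only [Matrix.smul_mul, Matrix.one_mul, Matrix.smul_apply, smul_eq_mul] at h2
  exact mul_left_cancel₀ hM h2

theorem mat_mul_inv {Γ : Subgroup SL(2, ℤ)} (γ : Γ) : mat γ * mat γ⁻¹ = 1 := by
  rw [← mat_mul, mul_inv_cancel, mat_one]

theorem det_mat {Γ : Subgroup SL(2, ℤ)} (γ : Γ) : (mat γ).det = 1 :=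
  (γ : SL(2, ℤ)).2

/-- The product family of two correspondence systems is a correspondence system as soon as its
members are pairwise inequivalent. -/
theorem isCorrSys_prod {Γ₁ Γ₂ Γ₃ : Subgroup SL(2, ℤ)} {ι κ : Type*}
    {α : ι → Matrix (Fin 2) (Fin 2) ℤ} {β : κ → Matrix (Fin 2) (Fin 2) ℤ}
    (h : IsCorrSys Γ₁ Γ₂ α) (h' : IsCorrSys Γ₂ Γ₃ β)
    (huniq : ∀ (x x' : ι × κ) (g : Γ₃), β x.2 * α x.1 = mat g * (β x'.2 * α x'.1) → x = x') :
    IsCorrSys Γ₁ Γ₃ (fun x : ι × κ => β x.2 * α x.1) where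
  det_ne x := by
    rw [Matrix.det_mul]
    exact mul_ne_zero (h'.det_ne x.2) (h.det_ne x.1)
  ex γ x := by
    refine ⟨(h.perm γ x.1, h'.perm (h.coc γ x.1) x.2), h'.coc (h.coc γ x.1) x.2, ?_⟩
    show β x.2 * α x.1 * mat γ = _ * (β (h'.perm (h.coc γ x.1) x.2) * α (h.perm γ x.1))
    rw [Matrix.mul_assoc, h.spec γ x.1, ← Matrix.mul_assoc, h'.spec (h.coc γ x.1) x.2,
      Matrix.mul_assoc]
  uniq := huniq

/-- Two correspondence systems with index sets of the same cardinality such that every member of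
the first is equivalent to a member of the second define the same operator. -/
theorem corrOp_congr_of_exists {Γ₁ Γ₂ : Subgroup SL(2, ℤ)} {ι ι' : Type*} [Fintype ι]
    [Fintype ι'] {α : ι → Matrix (Fin 2) (Fin 2) ℤ} {α' : ι' → Matrix (Fin 2) (Fin 2) ℤ}
    (h : IsCorrSys Γ₁ Γ₂ α) (h' : IsCorrSys Γ₁ Γ₂ α')
    (hcard : Fintype.card ι = Fintype.card ι')
    (hex : ∀ i, ∃ (i' : ι') (t : Γ₂), α' i' = mat t * α i)
    {A : Type*} [AddCommGroup A] :
    (h'.corrOp : (Additive Γ₂ →+ A) →+ (Additive Γ₁ →+ A)) = h.corrOp := by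
  classical
  choose f t hft using hex
  have hinj : Function.Injective f := by
    intro i j hij
    have h1 : mat (t i) * α i = mat (t j) * α j := by rw [← hft i, ← hft j, hij]
    have h2 : α i = mat ((t i)⁻¹ * t j) * α j := by
      rw [mat_mul, Matrix.mul_assoc, ← h1, ← Matrix.mul_assoc, mat_inv_mul, Matrix.one_mul]
    exact h.uniq _ _ _ h2
  have hbij : Function.Bijective f :=
    (Fintype.bijective_iff_injective_and_card f).mpr ⟨hinj, hcard⟩
  exact h.corrOp_congr h' (Equiv.ofBijective f hbij) t (fun i => hft i)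

/-- **Commutation of a transfer-like correspondence with a Hecke operator.**
`c i = D * s i` with `s i ∈ Γ` (one of them trivial) is a correspondence system from `Γ` to `Γ'`,
`D⁻¹ Γ' D ⊆ Γ`, and `α` is a Hecke system for both `Γ` and `Γ'` such that
* `α k * D ∈ D * Γ * α k₁` for every `k`, and
* `α k * D * γ = g * α k' * D` with `γ ∈ Γ`, `g ∈ Γ'` forces `D * γ ∈ Γ' * D`.
Then the operator of `c` intertwines the two Hecke operators. -/
theorem corrOp_heckeOp_comm {Γ Γ' : Subgroup SL(2, ℤ)} {ι κ : Type*} [Fintype ι] [Fintype κ]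
    {c : ι → Matrix (Fin 2) (Fin 2) ℤ} {α : κ → Matrix (Fin 2) (Fin 2) ℤ}
    (hc : IsCorrSys Γ Γ' c) (hT : IsHeckeSys Γ α) (hT' : IsHeckeSys Γ' α)
    (D : Matrix (Fin 2) (Fin 2) ℤ) (s : ι → Γ) (hcs : ∀ i, c i = D * mat (s i))
    (i₀ : ι) (hi₀ : s i₀ = 1)
    (hΓ : ∀ g : Γ', ∃ γ : Γ, mat g * D = D * mat γ)
    (hD : ∀ k, ∃ (k₁ : κ) (τ : Γ), α k * D = D * mat τ * α k₁)
    (hL : ∀ (k k' : κ) (γ : Γ) (g : Γ'), α k * D * mat γ = mat g * α k' * D →
      ∃ g₂ : Γ', D * mat γ = mat g₂ * D)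
    {A : Type*} [AddCommGroup A] (u : Additive Γ' →+ A) :
    hc.corrOp (hT'.heckeOp u) = hT.heckeOp (hc.corrOp u) := by
  have hDdet : D.det ≠ 0 := by
    have h1 := hc.det_ne i₀
    rw [hcs, Matrix.det_mul, det_mat, mul_one] at h1
    exact h1
  have hci₀ : c i₀ = D := by rw [hcs, hi₀, mat_one, Matrix.mul_one]
  -- the right product family `(k, i) ↦ c i * α k`
  have huniqR : ∀ (x x' : κ × ι) (g : Γ'), c x.2 * α x.1 = mat g * (c x'.2 * α x'.1) →
      x = x' := by
    rintro ⟨k, i⟩ ⟨k', i'⟩ g hg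
    simp only at hg
    obtain ⟨γ₀, hγ₀⟩ := hΓ g
    have h1 : D * (mat (s i) * α k) = D * (mat (γ₀ * s i') * α k') := by
      rw [← Matrix.mul_assoc, ← hcs, hg, hcs i', mat_mul]
      simp only [← Matrix.mul_assoc]
      rw [hγ₀]
    have h2 := mul_left_cancel_of_det_ne_zero hDdet h1
    have h3 : α k = mat ((s i)⁻¹ * (γ₀ * s i')) * α k' := by
      rw [mat_mul (s i)⁻¹, Matrix.mul_assoc, ← h2, ← Matrix.mul_assoc, mat_inv_mul,
        Matrix.one_mul]
    have hk : k = k' := hT.uniq _ _ _ h3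
    subst hk
    have h4 : c i = mat g * c i' := by
      apply mul_right_cancel_of_det_ne_zero (hT.det_ne k)
      rw [hg, Matrix.mul_assoc]
    have hi : i = i' := hc.uniq _ _ _ h4
    rw [hi]
  -- the left product family `(i, k) ↦ α k * c i`
  have huniqL : ∀ (x x' : ι × κ) (g : Γ'), α x.2 * c x.1 = mat g * (α x'.2 * c x'.1) →
      x = x' := by
    rintro ⟨i, k⟩ ⟨i', k'⟩ g hg
    simp only at hg
    have h1 : α k * D * mat (s i * (s i')⁻¹) = mat g * α k' * D := by
      have : α k * D * mat (s i) = mat g * α k' * D * mat (s i') := by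
        rw [Matrix.mul_assoc, ← hcs, hg, hcs i']
        simp only [Matrix.mul_assoc]
      rw [mat_mul, ← Matrix.mul_assoc, this, Matrix.mul_assoc, mat_mul_inv, Matrix.mul_one]
    obtain ⟨g₂, hg₂⟩ := hL k k' _ g h1
    have h2 : c i = mat g₂ * c i' := by
      rw [hcs i', ← Matrix.mul_assoc, ← hg₂, Matrix.mul_assoc, ← mat_mul, inv_mul_cancel_right,
        hcs]
    have hi : i = i' := hc.uniq _ _ _ h2
    subst hi
    have h3 : α k = mat g * α k' := by
      apply mul_right_cancel_of_det_ne_zero (hc.det_ne i)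
      rw [hg, Matrix.mul_assoc]
    have hk : k = k' := hT'.uniq _ _ _ h3
    rw [hk]
  have hTc := isCorrSys_of_isHeckeSys hT
  have hT'c := isCorrSys_of_isHeckeSys hT'
  have hprodL : IsCorrSys Γ Γ' (fun x : ι × κ => α x.2 * c x.1) :=
    isCorrSys_prod hc hT'c huniqL
  have hprodR : IsCorrSys Γ Γ' (fun x : κ × ι => c x.2 * α x.1) :=
    isCorrSys_prod hTc hc huniqR
  have hex : ∀ x : ι × κ, ∃ (y : κ × ι) (t : Γ'), c y.2 * α y.1 = mat t * (α x.2 * c x.1) := by
    rintro ⟨i, k⟩
    obtain ⟨k₁, τ, hτ⟩ := hD k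
    obtain ⟨k', γ', hγ'⟩ := hT.ex (s i) k₁
    obtain ⟨i', γ'', hγ''⟩ := hc.ex (τ * γ') i₀
    refine ⟨(k', i'), γ''⁻¹, ?_⟩
    show c i' * α k' = mat γ''⁻¹ * (α k * c i)
    have h1 : α k * c i = mat γ'' * (c i' * α k') := by
      rw [hcs i, ← Matrix.mul_assoc, hτ, Matrix.mul_assoc, Matrix.mul_assoc, hγ',
        ← Matrix.mul_assoc (mat τ), ← mat_mul, ← Matrix.mul_assoc, ← Matrix.mul_assoc,
        ← hγ'', hci₀]
    rw [h1, ← Matrix.mul_assoc, mat_inv_mul, Matrix.one_mul]
  have hcard : Fintype.card (ι × κ) = Fintype.card (κ × ι) := by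
    rw [Fintype.card_prod, Fintype.card_prod, mul_comm]
  have hcongr : (hprodR.corrOp : (Additive Γ' →+ A) →+ (Additive Γ →+ A)) = hprodL.corrOp :=
    corrOp_congr_of_exists hprodL hprodR hcard hex
  rw [← corrOp_eq_heckeOp hT, ← corrOp_eq_heckeOp hT', hc.corrOp_corrOp hT'c hprodL,
    hTc.corrOp_corrOp hc hprodR, hcongr]

end Fermat.Agent.S41.H63
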