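import Mathlib
import Fermat.Agent.S41.H41.Transfer
import Fermat.Agent.S41.H63.ProdSys

/-!
# S41, unit U2: the two transfers commute with the Hecke operators `T_ℓ`, `ℓ ∤ N q`

`beta1_heckeHom`, `beta2_heckeHom` (leaf statements U2-EQB1, U2-EQB2 of helper41's `U2Spec`,
verbatim), by the generic `corrOp_heckeOp_comm` of `ProdSys.lean`.
-/

set_option autoImplicit false

open CongruenceSubgroup
open scoped MatrixGroups
open Fermat.Agent.S16.H75 Fermat.Agent.S41.H41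

namespace Fermat.Agent.S41.H63

/-! ### Entries of the representatives of `T_ℓ` -/

theorem alphaT_one_zero (ℓ : ℕ) (k : Option (Fin ℓ)) : alphaT ℓ k 1 0 = 0 := by
  cases k <;> simp [alphaT, alphaInf, alphaFin]

theorem alphaT_zero_zero (ℓ : ℕ) (k : Option (Fin ℓ)) :
    alphaT ℓ k 0 0 = 1 ∨ alphaT ℓ k 0 0 = ℓ := by
  cases k <;> simp [alphaT, alphaInf, alphaFin]

theorem alphaT_one_one (ℓ : ℕ) (k : Option (Fin ℓ)) :
    alphaT ℓ k 1 1 = 1 ∨ alphaT ℓ k 1 1 = ℓ := by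
  cases k <;> simp [alphaT, alphaInf, alphaFin]

/-- An integer coprime to `ℓ` which divides `e * x`, `e ∈ {1, ℓ}`, divides `x`. -/
theorem dvd_of_dvd_mul_of_eq_one_or {m e x : ℤ} {ℓ : ℕ} (hcop : IsCoprime m (ℓ : ℤ))
    (he : e = 1 ∨ e = ℓ) (h : m ∣ e * x) : m ∣ x := by
  rcases he with rfl | rfl
  · simpa using h
  · exact hcop.dvd_of_dvd_mul_left h

theorem isCoprime_of_not_dvd {ℓ : ℕ} (hℓ : ℓ.Prime) {m : ℕ} (hm : ¬ ℓ ∣ m) :
    IsCoprime (m : ℤ) (ℓ : ℤ) := by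
  rw [Int.isCoprime_iff_gcd_eq_one, Int.gcd_natCast_natCast]
  exact ((Nat.Prime.coprime_iff_not_dvd hℓ).mpr hm).symm

theorem det_eq_one {Γ : Subgroup SL(2, ℤ)} (γ : Γ) :
    mat γ 0 0 * mat γ 1 1 - mat γ 0 1 * mat γ 1 0 = 1 := by
  have := det_mat γ
  rwa [Matrix.det_fin_two] at this

theorem gcd_ab_eq_one {N q : ℕ} (hq : q.Prime) (hqN : ¬ q ∣ N) :
    (q : ℤ) * Int.gcdA q N + (N : ℤ) * Int.gcdB q N = 1 := by
  have h1 := Int.gcd_eq_gcd_ab (q : ℤ) (N : ℤ)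
  have h2 : Int.gcd (q : ℤ) (N : ℤ) = 1 := by
    rw [Int.gcd_natCast_natCast]
    exact (Nat.Prime.coprime_iff_not_dvd hq).mpr hqN
  rw [h2] at h1
  exact_mod_cast h1.symm

/-! ### The first transfer -/

/-- An element of `SL(2, ℤ)` from an integer matrix of determinant one. -/
def slOf (M : Matrix (Fin 2) (Fin 2) ℤ) (h : M.det = 1) : SL(2, ℤ) := ⟨M, h⟩

@[simp] theorem coe_slOf (M : Matrix (Fin 2) (Fin 2) ℤ) (h : M.det = 1) :
    ((slOf M h : SL(2, ℤ)) : Matrix (Fin 2) (Fin 2) ℤ) = M := rfl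

/-- An element of `Γ₀(N)` from an integer matrix of determinant one with lower left entry
divisible by `N`. -/
def gamma0Of {N : ℕ} (M : Matrix (Fin 2) (Fin 2) ℤ) (h : M.det = 1) (hN : (N : ℤ) ∣ M 1 0) :
    Gamma0 N := ⟨slOf M h, (mem_Gamma0_iff_dvd _).mpr hN⟩

@[simp] theorem mat_gamma0Of {N : ℕ} (M : Matrix (Fin 2) (Fin 2) ℤ) (h : M.det = 1)
    (hN : (N : ℤ) ∣ M 1 0) : mat (gamma0Of M h hN) = M := rfl

/-- The elements of `Γ₀(N)` whose matrices are the representatives `famCor1 N q`. -/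
noncomputable def sCor1 {N q : ℕ} (hq : q.Prime) (hqN : ¬ q ∣ N) : Option (Fin q) → Gamma0 N
  | some j => gamma0Of !![1, 0; (N : ℤ) * (j : ℕ), 1] (by simp [Matrix.det_fin_two_of])
      (by simp)
  | none => gamma0Of !![Int.gcdA q N, -Int.gcdB q N; (N : ℤ), (q : ℤ)] (by
      rw [Matrix.det_fin_two_of]
      linear_combination gcd_ab_eq_one hq hqN) (by simp)

theorem famCor1_eq {N q : ℕ} (hq : q.Prime) (hqN : ¬ q ∣ N) (i : Option (Fin q)) :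
    famCor1 N q i = 1 * mat (sCor1 hq hqN i) := by
  cases i <;> simp [famCor1, sCor1]

theorem sCor1_zero {N q : ℕ} (hq : q.Prime) (hqN : ¬ q ∣ N) :
    sCor1 hq hqN (some ⟨0, hq.pos⟩) = 1 := by
  apply mat_injective
  rw [mat_one]
  ext i j
  fin_cases i <;> fin_cases j <;> simp [sCor1]

/-- LEAF U2-EQB1 (statement of helper41's `U2Spec`, verbatim): the transfer commutes with `T_ℓ`,
`ℓ ∤ N q`. -/
theorem beta1_heckeHom {N q : ℕ} (hq : q.Prime) (hqN : ¬ q ∣ N) (ℓ : Nat.Primes)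
    (hℓ : ¬ (ℓ : ℕ) ∣ N * q)
    {A : Type*} [AddCommGroup A] (u : Additive (Gamma0 (N * q)) →+ A) :
    beta1 N q A (heckeHom (N * q) ℓ A u) = heckeHom N ℓ A (beta1 N q A u) := by
  have hℓN : ¬ (ℓ : ℕ) ∣ N := fun h => hℓ (dvd_mul_of_dvd_left h q)
  rw [beta1_eq hq hqN, heckeHom_of_not_dvd hℓ, heckeHom_of_not_dvd hℓN]
  refine corrOp_heckeOp_comm (isCorrSys_cor1 hq hqN) (isHeckeSys_T ℓ.2 hℓN) (isHeckeSys_T ℓ.2 hℓ)
    1 (sCor1 hq hqN) (famCor1_eq hq hqN) (some ⟨0, hq.pos⟩) (sCor1_zero hq hqN) ?_ ?_ ?_ u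
  · intro g
    exact ⟨inclGamma N q g, by rw [Matrix.mul_one, Matrix.one_mul, mat_inclGamma]⟩
  · intro k
    exact ⟨k, 1, by rw [Matrix.mul_one, Matrix.one_mul, mat_one, Matrix.one_mul]⟩
  · intro k k' γ g h
    rw [Matrix.mul_one, Matrix.mul_one] at h
    have hg : ((N * q : ℕ) : ℤ) ∣ mat g 1 0 := (mem_Gamma0_iff_dvd _).mp g.2
    have e10 := congrFun (congrFun h 1) 0
    rw [Matrix.mul_apply, Matrix.mul_apply, Fin.sum_univ_two, Fin.sum_univ_two,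
      alphaT_one_zero, alphaT_one_zero, zero_mul, zero_add, mul_zero, add_zero] at e10
    have h1 : ((N * q : ℕ) : ℤ) ∣ alphaT ℓ k 1 1 * mat γ 1 0 := by
      rw [e10]
      exact Dvd.dvd.mul_right hg _
    have h2 : ((N * q : ℕ) : ℤ) ∣ mat γ 1 0 :=
      dvd_of_dvd_mul_of_eq_one_or (isCoprime_of_not_dvd ℓ.2 hℓ) (alphaT_one_one ℓ k) h1
    exact ⟨⟨γ.1, (mem_Gamma0_iff_dvd _).mpr h2⟩, by rw [Matrix.one_mul, Matrix.mul_one]⟩

/-! ### The second transfer -/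

/-- `diag(1, q)`. -/
def diagD (q : ℕ) : Matrix (Fin 2) (Fin 2) ℤ := !![1, 0; 0, (q : ℤ)]

theorem mul_diagD_zero_zero (q : ℕ) (M : Matrix (Fin 2) (Fin 2) ℤ) :
    (M * diagD q) 0 0 = M 0 0 := by
  simp [diagD, Matrix.mul_apply, Fin.sum_univ_two]

theorem mul_diagD_zero_one (q : ℕ) (M : Matrix (Fin 2) (Fin 2) ℤ) :
    (M * diagD q) 0 1 = M 0 1 * q := by
  simp [diagD, Matrix.mul_apply, Fin.sum_univ_two]

theorem mul_diagD (q : ℕ) (M : Matrix (Fin 2) (Fin 2) ℤ) :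
    M * diagD q = !![M 0 0, M 0 1 * q; M 1 0, M 1 1 * q] := by
  ext i j
  fin_cases i <;> fin_cases j <;> simp [diagD, Matrix.mul_apply, Fin.sum_univ_two]

theorem diagD_mul (q : ℕ) (M : Matrix (Fin 2) (Fin 2) ℤ) :
    diagD q * M = !![M 0 0, M 0 1; q * M 1 0, q * M 1 1] := by
  ext i j
  fin_cases i <;> fin_cases j <;> simp [diagD, Matrix.mul_apply, Fin.sum_univ_two]

/-- The elements `s i ∈ Γ₀(N)` with `famCor2 N q i = diag(1, q) * s i`. -/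
noncomputable def sCor2 {N q : ℕ} (hq : q.Prime) (hqN : ¬ q ∣ N) : Option (Fin q) → Gamma0 N
  | some j => gamma0Of !![1, ((j : ℕ) : ℤ); 0, 1] (by simp [Matrix.det_fin_two_of]) (by simp)
  | none => gamma0Of !![(q : ℤ), -Int.gcdB q N; (N : ℤ), Int.gcdA q N] (by
      rw [Matrix.det_fin_two_of]
      linear_combination gcd_ab_eq_one hq hqN) (by simp)

theorem famCor2_eq {N q : ℕ} (hq : q.Prime) (hqN : ¬ q ∣ N) (i : Option (Fin q)) :
    famCor2 N q i = diagD q * mat (sCor2 hq hqN i) := by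
  rw [diagD_mul]
  cases i <;> simp [famCor2, sCor2]

theorem sCor2_zero {N q : ℕ} (hq : q.Prime) (hqN : ¬ q ∣ N) :
    sCor2 hq hqN (some ⟨0, hq.pos⟩) = 1 := by
  apply mat_injective
  rw [mat_one]
  ext i j
  fin_cases i <;> fin_cases j <;> simp [sCor2]

/-- `Γ₀(N q) * diag(1, q) ⊆ diag(1, q) * Γ₀(N)`. -/
theorem exists_mul_diagD {N q : ℕ} (g : Gamma0 (N * q)) :
    ∃ γ : Gamma0 N, mat g * diagD q = diagD q * mat γ := by
  have hg : ((N * q : ℕ) : ℤ) ∣ mat g 1 0 := (mem_Gamma0_iff_dvd _).mp g.2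
  obtain ⟨c', hc'⟩ := hg
  have hdet := det_eq_one g
  refine ⟨gamma0Of !![mat g 0 0, (q : ℤ) * mat g 0 1; (N : ℤ) * c', mat g 1 1] ?_ (by simp), ?_⟩
  · rw [Matrix.det_fin_two_of]
    rw [hc'] at hdet
    push_cast at hdet
    linear_combination hdet
  · rw [mul_diagD, diagD_mul, mat_gamma0Of]
    have h10 : mat g 1 0 = (q : ℤ) * ((N : ℤ) * c') := by
      rw [hc']; push_cast; ring
    ext i j
    fin_cases i <;> fin_cases j <;> simp [h10, mul_comm]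

/-- `α k * diag(1, q) ∈ diag(1, q) * Γ₀(N) * α k₁`. -/
theorem exists_alphaT_mul_diagD {N : ℕ} (q : ℕ) {ℓ : ℕ} (hℓ : ℓ.Prime) (k : Option (Fin ℓ)) :
    ∃ (k₁ : Option (Fin ℓ)) (τ : Gamma0 N),
      alphaT ℓ k * diagD q = diagD q * mat τ * alphaT ℓ k₁ := by
  cases k with
  | none =>
    refine ⟨none, 1, ?_⟩
    rw [mat_one, Matrix.mul_one, mul_diagD, diagD_mul]
    ext i j
    fin_cases i <;> fin_cases j <;> simp [alphaT, alphaInf]
  | some j =>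
    refine ⟨some ⟨(q * j) % ℓ, Nat.mod_lt _ hℓ.pos⟩,
      gamma0Of !![1, ((q * j / ℓ : ℕ) : ℤ); 0, 1] (by simp [Matrix.det_fin_two_of]) (by simp), ?_⟩
    have hdiv : ((q * (j : ℕ) % ℓ : ℕ) : ℤ) + ((q * (j : ℕ) / ℓ : ℕ) : ℤ) * (ℓ : ℤ) =
        (j : ℕ) * (q : ℤ) := by
      have := Nat.mod_add_div (q * (j : ℕ)) ℓ
      have h2 : ((q * (j : ℕ) % ℓ + ℓ * (q * (j : ℕ) / ℓ) : ℕ) : ℤ) = ((q * (j : ℕ) : ℕ) : ℤ) := by
        rw [this]
      simp only [Nat.cast_add, Nat.cast_mul] at h2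
      linear_combination h2
    rw [mat_gamma0Of]
    ext a b
    fin_cases a <;> fin_cases b
    · simp [alphaT, alphaFin, diagD, Matrix.mul_apply, Fin.sum_univ_two]
    · simp only [alphaT, alphaFin, diagD, Matrix.mul_apply, Fin.sum_univ_two, Fin.zero_eta,
        Fin.mk_one, Matrix.of_apply, Matrix.cons_val_zero, Matrix.cons_val_one]
      linear_combination -hdiv
    · simp [alphaT, alphaFin, diagD, Matrix.mul_apply, Fin.sum_univ_two]
    · simp [alphaT, alphaFin, diagD, Matrix.mul_apply, Fin.sum_univ_two, mul_comm]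

/-- LEAF U2-EQB2 (statement of helper41's `U2Spec`, verbatim): the twisted transfer commutes with
`T_ℓ`, `ℓ ∤ N q`. -/
theorem beta2_heckeHom {N q : ℕ} (hq : q.Prime) (hqN : ¬ q ∣ N) (ℓ : Nat.Primes)
    (hℓ : ¬ (ℓ : ℕ) ∣ N * q)
    {A : Type*} [AddCommGroup A] (u : Additive (Gamma0 (N * q)) →+ A) :
    beta2 N q A (heckeHom (N * q) ℓ A u) = heckeHom N ℓ A (beta2 N q A u) := by
  have hℓN : ¬ (ℓ : ℕ) ∣ N := fun h => hℓ (dvd_mul_of_dvd_left h q)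
  have hℓq : ¬ (ℓ : ℕ) ∣ q := fun h => hℓ (dvd_mul_of_dvd_right h N)
  rw [beta2_eq hq hqN, heckeHom_of_not_dvd hℓ, heckeHom_of_not_dvd hℓN]
  refine corrOp_heckeOp_comm (isCorrSys_cor2 hq hqN) (isHeckeSys_T ℓ.2 hℓN) (isHeckeSys_T ℓ.2 hℓ)
    (diagD q) (sCor2 hq hqN) (famCor2_eq hq hqN) (some ⟨0, hq.pos⟩) (sCor2_zero hq hqN)
    exists_mul_diagD (exists_alphaT_mul_diagD q ℓ.2) ?_ u
  intro k k' γ g h
  have hγ : (N : ℤ) ∣ mat γ 1 0 := (mem_Gamma0_iff_dvd _).mp γ.2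
  have hdet := det_eq_one γ
  -- compare the `(0, 1)` entries
  have e01 := congrFun (congrFun h 0) 1
  rw [mul_diagD_zero_one, Matrix.mul_apply, Fin.sum_univ_two, mul_diagD_zero_zero,
    mul_diagD_zero_one] at e01
  have h1 : (q : ℤ) ∣ alphaT ℓ k 0 0 * mat γ 0 1 :=
    ⟨(mat g * alphaT ℓ k') 0 1 - alphaT ℓ k 0 1 * mat γ 1 1, by linear_combination e01⟩
  obtain ⟨m, hm⟩ : (q : ℤ) ∣ mat γ 0 1 :=
    dvd_of_dvd_mul_of_eq_one_or (isCoprime_of_not_dvd ℓ.2 hℓq) (alphaT_zero_zero ℓ k) h1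
  refine ⟨gamma0Of !![mat γ 0 0, m; (q : ℤ) * mat γ 1 0, mat γ 1 1] ?_ ?_, ?_⟩
  · rw [Matrix.det_fin_two_of]
    rw [hm] at hdet
    linear_combination hdet
  · obtain ⟨c, hc⟩ := hγ
    refine ⟨c, ?_⟩
    simp only [Matrix.of_apply, Matrix.cons_val_one, Matrix.cons_val_zero]
    rw [hc]; push_cast; ring
  · rw [mul_diagD, diagD_mul, mat_gamma0Of]
    ext i j
    fin_cases i <;> fin_cases j <;> simp [hm, mul_comm]

end Fermat.Agent.S41.H63
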